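import Mathlib

/-!
# A freeness criterion for finitely generated abelian groups

A finitely generated abelian group `A` with `dim Hom(A, K) ≥ r` for a field `K` of characteristic
zero and `dim Hom(A, 𝔽_p) ≤ r` for all primes `p` is free of rank `r`.
-/

set_option autoImplicit false

namespace Fermat.Agent.Lib.EllPar

section AbFree

variable {A : Type*} [AddCommGroup A]

/-- a surjection onto `k^m` gives `m` independent homomorphisms to `k` -/
theorem le_finrank_of_surjective {k : Type*} [Field k] [Module.Finite k (A →+ k)] {m : ℕ}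
    (q : A →+ (Fin m → k)) (hq : Function.Surjective q) : m ≤ Module.finrank k (A →+ k) := by
  let G : (Fin m → k) →ₗ[k] (A →+ k) :=
    { toFun := fun x =>
        { toFun := fun a => ∑ j, x j * q a j
          map_zero' := by simp
          map_add' := by intro a b; simp [mul_add, Finset.sum_add_distrib] }
      map_add' := by intro x y; ext a; simp [add_mul, Finset.sum_add_distrib]
      map_smul' := by intro c x; ext a; simp [Finset.mul_sum, mul_assoc] }
  have hG : Function.Injective G := by
    intro x y hxy
    funext j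
    obtain ⟨a, ha⟩ := hq (Pi.single j 1)
    have := DFunLike.congr_fun hxy a
    simpa [G, ha, Pi.single_apply] using this
  have := LinearMap.finrank_le_finrank_of_injective hG
  simpa using this

theorem finrank_le_of_equiv {K : Type*} [Field K] [CharZero K] {n : ℕ} {ι : Type}
    (d : ι → ℕ) (hd : ∀ i, d i ≠ 0)
    (φ : A ≃+ (Fin n →₀ ℤ) × DirectSum ι fun i => ZMod (d i)) :
    Module.finrank K (A →+ K) ≤ n := by
  classical
  let F : (A →+ K) →ₗ[K] (Fin n → K) :=
    { toFun := fun χ j => χ (φ.symm (Finsupp.single j 1, 0))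
      map_add' := by intro x y; rfl
      map_smul' := by intro c x; rfl }
  have hF : Function.Injective F := by
    intro χ₁ χ₂ h12
    have hval : ∀ j, χ₁ (φ.symm (Finsupp.single j 1, 0)) = χ₂ (φ.symm (Finsupp.single j 1, 0)) :=
      fun j => congrFun h12 j
    have h1 : (χ₁.comp φ.symm.toAddMonoidHom).comp (AddMonoidHom.inl _ _)
        = (χ₂.comp φ.symm.toAddMonoidHom).comp (AddMonoidHom.inl _ _) := by
      refine Finsupp.addHom_ext fun j y => ?_
      have hy : (Finsupp.single j y : Fin n →₀ ℤ) = y • Finsupp.single j 1 := by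
        rw [Finsupp.smul_single, smul_eq_mul, mul_one]
      rw [hy, map_zsmul, map_zsmul]
      congr 1
      exact hval j
    have h2 : (χ₁.comp φ.symm.toAddMonoidHom).comp (AddMonoidHom.inr _ _)
        = (χ₂.comp φ.symm.toAddMonoidHom).comp (AddMonoidHom.inr _ _) := by
      have hz : ∀ (χ : (DirectSum ι fun i => ZMod (d i)) →+ K), χ = 0 := by
        intro χ
        refine DirectSum.addHom_ext fun i y => ?_
        have h3 : (d i) • χ (DirectSum.of (fun i => ZMod (d i)) i y) = 0 := by
          rw [← map_nsmul, ← map_nsmul]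
          have : (d i) • y = 0 := by
            rw [nsmul_eq_mul, ZMod.natCast_self, zero_mul]
          rw [this, map_zero, map_zero]
        rw [nsmul_eq_mul] at h3
        rcases mul_eq_zero.mp h3 with h4 | h4
        · exact absurd (Nat.cast_eq_zero.mp h4) (hd i)
        · simpa using h4
      exact (hz _).trans (hz _).symm
    ext a
    obtain ⟨⟨f, t⟩, rfl⟩ := φ.symm.surjective a
    have hft : ((f, t) : (Fin n →₀ ℤ) × DirectSum ι fun i => ZMod (d i)) = (f, 0) + (0, t) := by
      simp
    rw [hft, map_add, map_add, map_add]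
    congr 1
    · exact DFunLike.congr_fun h1 f
    · exact DFunLike.congr_fun h2 t
  have := LinearMap.finrank_le_finrank_of_injective hF
  simpa using this

/-- **Freeness criterion.** -/
theorem nonempty_equiv_of_bounds [AddGroup.FG A] (r : ℕ) {K : Type*} [Field K] [CharZero K]
    (h0 : r ≤ Module.finrank K (A →+ K))
    (hp : ∀ p : ℕ, [Fact p.Prime] → Module.Finite (ZMod p) (A →+ ZMod p)
      ∧ Module.finrank (ZMod p) (A →+ ZMod p) ≤ r) :
    Nonempty (A ≃+ (Fin r → ℤ)) := by
  classical
  obtain ⟨n, ι, _, p, hpp, e, ⟨φ⟩⟩ := AddCommGroup.equiv_free_prod_directSum_zmod A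
  have h1 : Module.finrank K (A →+ K) ≤ n :=
    finrank_le_of_equiv (fun i => p i ^ e i) (fun i => pow_ne_zero _ (hpp i).ne_zero) φ
  -- the integral coordinates
  let c : A →+ (Fin n → ℤ) :=
    { toFun := fun a j => (φ a).1 j
      map_zero' := by funext j; simp
      map_add' := by intro a b; funext j; simp }
  have hc : ∀ (x : Fin n → ℤ) (t : DirectSum ι fun i => ZMod (p i ^ e i)),
      c (φ.symm (Finsupp.equivFunOnFinite.symm x, t)) = x := by
    intro x t
    funext j
    simp [c]
  have h2 : n ≤ r := by
    have : Fact (Nat.Prime 2) := ⟨Nat.prime_two⟩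
    obtain ⟨hfin, hle⟩ := hp 2
    let q : A →+ (Fin n → ZMod 2) :=
      { toFun := fun a j => ((c a j : ℤ) : ZMod 2)
        map_zero' := by funext j; simp
        map_add' := by intro a b; funext j; simp }
    have hq : Function.Surjective q := by
      intro x
      refine ⟨φ.symm (Finsupp.equivFunOnFinite.symm (fun j => ((x j).val : ℤ)), 0), ?_⟩
      funext j
      show ((c _ j : ℤ) : ZMod 2) = x j
      rw [hc]
      simp
    exact (le_finrank_of_surjective q hq).trans hle
  have hnr : n = r := le_antisymm h2 (h0.trans h1)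
  have h3 : ∀ i, e i = 0 := by
    by_contra hcon
    push Not at hcon
    obtain ⟨i₀, hi₀⟩ := hcon
    have : Fact (Nat.Prime (p i₀)) := ⟨hpp i₀⟩
    obtain ⟨hfin, hle⟩ := hp (p i₀)
    have hdvd : p i₀ ∣ p i₀ ^ e i₀ := dvd_pow_self _ hi₀
    let q : A →+ (Fin (n + 1) → ZMod (p i₀)) :=
      { toFun := fun a => Fin.cons (ZMod.castHom hdvd (ZMod (p i₀)) ((φ a).2 i₀))
          (fun j => ((c a j : ℤ) : ZMod (p i₀)))
        map_zero' := by
          funext j
          refine Fin.cases ?_ (fun j => ?_) j <;> simp
        map_add' := by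
          intro a b
          funext j
          refine Fin.cases ?_ (fun j => ?_) j
          · show ZMod.castHom hdvd (ZMod (p i₀)) ((φ (a + b)).2 i₀)
              = ZMod.castHom hdvd (ZMod (p i₀)) ((φ a).2 i₀)
                + ZMod.castHom hdvd (ZMod (p i₀)) ((φ b).2 i₀)
            rw [map_add, Prod.snd_add, DirectSum.add_apply, map_add]
          · simp }
    have hq : Function.Surjective q := by
      intro x
      obtain ⟨y, hy⟩ := ZMod.castHom_surjective hdvd (x 0)
      refine ⟨φ.symm (Finsupp.equivFunOnFinite.symm (fun j => ((x j.succ).val : ℤ)),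
        DirectSum.of (fun i => ZMod (p i ^ e i)) i₀ y), ?_⟩
      funext j
      refine Fin.cases ?_ (fun j => ?_) j
      · show ZMod.castHom hdvd (ZMod (p i₀)) ((φ (φ.symm _)).2 i₀) = x 0
        rw [AddEquiv.apply_symm_apply]
        show ZMod.castHom hdvd (ZMod (p i₀)) (DirectSum.of (fun i => ZMod (p i ^ e i)) i₀ y i₀) = x 0
        rw [DirectSum.of_eq_same, hy]
      · show ((c _ j : ℤ) : ZMod (p i₀)) = x j.succ
        rw [hc]
        simp
    have := (le_finrank_of_surjective q hq).trans hle
    omega
  have hsub : ∀ t t' : DirectSum ι fun i => ZMod (p i ^ e i), t = t' := by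
    intro t t'
    refine DFinsupp.ext fun i => ?_
    have : Subsingleton (ZMod (p i ^ e i)) := by
      rw [h3 i, pow_zero]
      infer_instance
    exact Subsingleton.elim _ _
  subst hnr
  refine ⟨AddEquiv.ofBijective c ⟨?_, ?_⟩⟩
  · intro a b hab
    apply φ.injective
    refine Prod.ext (Finsupp.ext fun j => congrFun hab j) (hsub _ _)
  · intro x
    exact ⟨_, hc x 0⟩

end AbFree

end Fermat.Agent.Lib.EllPar
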