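import Mathlib
import Fermat.Prelude.Def_ModularCurve_PeriodMap
import Fermat.Agent.S21.GroupBound

/-!
# Homomorphisms killing elliptic and parabolic elements: dimension bound over any field
-/

set_option autoImplicit false
open ModularCurve.Period
open scoped MatrixGroups
open Fermat.Agent.S21.GroupBound (Orb omk omk_smul omk_surj kel kel_mul kel_one coe_kel_of_fixed
  x0 smul_x0 out_smul_x0 x0_out_mem mem_smul_x0 S_pow_four ST_pow_six)

namespace Fermat.Agent.Lib.EllPar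

section Abstract

variable (k : Type*) [Field k]
variable {G X : Type*} [Group G] [MulAction G X]

variable [Fintype X]

/-- the pairing between orbit functions and pairs of functions -/
noncomputable def pairing (S T U : G) :
    ((Orb X S → k) × (Orb X U → k) × (Orb X T → k)) →ₗ[k] Module.Dual k ((X → k) × (X → k)) :=
  LinearMap.mk₂ k (fun d e => ∑ x, (d.1 (omk S x) * e.1 x + d.2.1 (omk U x) * e.2 x
      + d.2.2 (omk T x) * (e.2 x - e.1 (T • x))))
    (by
      intro d d' e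
      rw [← Finset.sum_add_distrib]
      refine Finset.sum_congr rfl fun x _ => ?_
      simp only [Prod.fst_add, Prod.snd_add, Pi.add_apply]
      ring)
    (by
      intro c d e
      rw [smul_eq_mul, Finset.mul_sum]
      refine Finset.sum_congr rfl fun x _ => ?_
      simp only [Prod.smul_fst, Prod.smul_snd, Pi.smul_apply, smul_eq_mul]
      ring)
    (by
      intro d e e'
      rw [← Finset.sum_add_distrib]
      refine Finset.sum_congr rfl fun x _ => ?_
      simp only [Prod.fst_add, Prod.snd_add, Pi.add_apply]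
      ring)
    (by
      intro c d e
      rw [smul_eq_mul, Finset.mul_sum]
      refine Finset.sum_congr rfl fun x _ => ?_
      simp only [Prod.smul_fst, Prod.smul_snd, Pi.smul_apply, smul_eq_mul]
      ring)

theorem pairing_apply (S T U : G) (d : (Orb X S → k) × (Orb X U → k) × (Orb X T → k))
    (e : (X → k) × (X → k)) :
    pairing k S T U d e = ∑ x, (d.1 (omk S x) * e.1 x + d.2.1 (omk U x) * e.2 x
      + d.2.2 (omk T x) * (e.2 x - e.1 (T • x))) := rfl

/-- the constraint space -/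
noncomputable def Wsub (S T U : G) : Submodule k ((X → k) × (X → k)) :=
  (LinearMap.range (pairing k (X := X) S T U)).dualCoannihilator

theorem mem_Wsub_of (S T U : G) (α β : X → k)
    (hS : ∀ h : X → k, (∀ x, h (S • x) = h x) → ∑ x, h x * α x = 0)
    (hU : ∀ h : X → k, (∀ x, h (U • x) = h x) → ∑ x, h x * β x = 0)
    (hT : ∀ h : X → k, (∀ x, h (T • x) = h x) → ∑ x, h x * (β x - α (T • x)) = 0) :
    (α, β) ∈ Wsub k S T U := by
  rw [Wsub, Submodule.mem_dualCoannihilator]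
  rintro _ ⟨d, rfl⟩
  rw [pairing_apply, Finset.sum_add_distrib, Finset.sum_add_distrib,
    hS (fun x => d.1 (omk S x)) (fun x => by simp only [omk_smul]),
    hU (fun x => d.2.1 (omk U x)) (fun x => by simp only [omk_smul]),
    hT (fun x => d.2.2 (omk T x)) (fun x => by simp only [omk_smul])]
  simp

theorem pairing_ker_aux [DecidableEq X] (S T U : G)
    (d : (Orb X S → k) × (Orb X U → k) × (Orb X T → k)) (hd : pairing k S T U d = 0) (y : X) :
    d.1 (omk S y) = d.2.2 (omk T y) ∧ d.2.1 (omk U y) = - d.2.2 (omk T y) := by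
  constructor
  · have h := LinearMap.congr_fun hd (Pi.single y 1, 0)
    rw [pairing_apply] at h
    simp only [Pi.zero_apply, mul_zero, add_zero, zero_sub, mul_neg, LinearMap.zero_apply,
      Finset.sum_add_distrib, Finset.sum_neg_distrib] at h
    have h1 : ∑ x, d.1 (omk S x) * (Pi.single y (1:k) : X → k) x = d.1 (omk S y) := by
      simp [Pi.single_apply]
    have h2 : ∑ x, d.2.2 (omk T x) * (Pi.single y (1:k) : X → k) (T • x) = d.2.2 (omk T y) := by
      rw [← Equiv.sum_comp (MulAction.toPerm T⁻¹)]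
      simp only [MulAction.toPerm_apply, smul_inv_smul]
      have : ∀ x : X, omk T (T⁻¹ • x) = omk T x := fun x => by
        conv_rhs => rw [← smul_inv_smul T x, omk_smul]
      simp [Pi.single_apply, this]
    rw [h1, h2] at h
    linear_combination h
  · have h := LinearMap.congr_fun hd (0, Pi.single y 1)
    rw [pairing_apply] at h
    simp only [Pi.zero_apply, mul_zero, zero_add, sub_zero, LinearMap.zero_apply,
      Finset.sum_add_distrib] at h
    have h1 : ∑ x, d.2.1 (omk U x) * (Pi.single y (1:k) : X → k) x = d.2.1 (omk U y) := by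
      simp [Pi.single_apply]
    have h2 : ∑ x, d.2.2 (omk T x) * (Pi.single y (1:k) : X → k) x = d.2.2 (omk T y) := by
      simp [Pi.single_apply]
    rw [h1, h2] at h
    linear_combination h

theorem finrank_ker_pairing_le (S T U : G) (x₀ : X)
    (hconst : ∀ n : X → k, (∀ x, n (S • x) = n x) → (∀ x, n (T • x) = n x) → ∀ x, n x = n x₀) :
    Module.finrank k (LinearMap.ker (pairing k (X := X) S T U)) ≤ 1 := by
  classical
  let ev : LinearMap.ker (pairing k (X := X) S T U) →ₗ[k] k :=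
    { toFun := fun d => d.1.2.2 (omk T x₀)
      map_add' := fun d d' => rfl
      map_smul' := fun c d => rfl }
  have hinj : Function.Injective ev := by
    rw [← LinearMap.ker_eq_bot, LinearMap.ker_eq_bot']
    rintro ⟨d, hd⟩ h0
    rw [LinearMap.mem_ker] at hd
    have h0' : d.2.2 (omk T x₀) = 0 := h0
    have haux := pairing_ker_aux k S T U d hd
    have hn : ∀ x, d.2.2 (omk T x) = 0 := by
      intro x
      rw [hconst (fun x => d.2.2 (omk T x)) (fun x => by
        rw [← (haux (S • x)).1, ← (haux x).1, omk_smul]) (fun x => by simp only [omk_smul]) x, h0']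
    apply Subtype.ext
    show d = 0
    refine Prod.ext ?_ (Prod.ext ?_ ?_)
    · funext o
      obtain ⟨x, rfl⟩ := omk_surj S o
      rw [(haux x).1, hn]; rfl
    · funext o
      obtain ⟨x, rfl⟩ := omk_surj U o
      rw [(haux x).2, hn]; simp
    · funext o
      obtain ⟨x, rfl⟩ := omk_surj T o
      rw [hn]; rfl
  have := LinearMap.finrank_le_finrank_of_injective hinj
  simpa using this

theorem finrank_Wsub_le (S T U : G) (x₀ : X)
    (hconst : ∀ n : X → k, (∀ x, n (S • x) = n x) → (∀ x, n (T • x) = n x) → ∀ x, n x = n x₀) :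
    Module.finrank k (Wsub k (X := X) S T U) + (Nat.card (Orb X S) + Nat.card (Orb X U)
      + Nat.card (Orb X T)) ≤ 2 * Nat.card X + 1 := by
  classical
  have : Fintype (Orb X S) := Fintype.ofFinite _
  have : Fintype (Orb X U) := Fintype.ofFinite _
  have : Fintype (Orb X T) := Fintype.ofFinite _
  have h1 := Subspace.finrank_add_finrank_dualCoannihilator_eq
    (LinearMap.range (pairing k (X := X) S T U))
  have h2 := LinearMap.finrank_range_add_finrank_ker (pairing k (X := X) S T U)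
  have h3 := finrank_ker_pairing_le k S T U x₀ hconst
  rw [Module.finrank_prod, Module.finrank_fintype_fun_eq_card] at h1
  rw [Module.finrank_prod, Module.finrank_prod, Module.finrank_fintype_fun_eq_card,
    Module.finrank_fintype_fun_eq_card, Module.finrank_fintype_fun_eq_card] at h2
  simp only [Nat.card_eq_fintype_card]
  have h4 : Module.finrank k (Wsub k (X := X) S T U)
    = Module.finrank k (LinearMap.range (pairing k (X := X) S T U)).dualCoannihilator := rfl
  omega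

end Abstract

/-- elliptic (finite order) or parabolic (or `± 1`) elements of `SL(2, ℤ)` -/
def IsEllPar (γ : SL(2, ℤ)) : Prop :=
  IsOfFinOrder γ ∨ (γ : Matrix (Fin 2) (Fin 2) ℤ).trace ^ 2 = 4

variable (Γ : Subgroup SL(2, ℤ))

/-- homomorphisms killing all elliptic and parabolic elements -/
def KillsEllPar {B : Type*} [AddCommGroup B] (ψ : Additive Γ →+ B) : Prop :=
  ∀ γ : Γ, IsEllPar (γ : SL(2, ℤ)) → ψ (Additive.ofMul γ) = 0

section Coc

variable {B : Type*} [AddCommGroup B]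

/-- the (Shapiro) cocycle attached to `ψ` -/
noncomputable def coc (ψ : Additive Γ →+ B) (a : SL(2, ℤ)) (x : SL(2, ℤ) ⧸ Γ) : B :=
  ψ (Additive.ofMul (kel Γ a x))

theorem coc_mul (ψ : Additive Γ →+ B) (a b : SL(2, ℤ)) (x : SL(2, ℤ) ⧸ Γ) :
    coc Γ ψ (a * b) x = coc Γ ψ a (b • x) + coc Γ ψ b x := by
  simp only [coc, kel_mul, ofMul_mul, map_add]

theorem coc_one (ψ : Additive Γ →+ B) (x : SL(2, ℤ) ⧸ Γ) : coc Γ ψ 1 x = 0 := by
  simp only [coc, kel_one, ofMul_one, map_zero]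

theorem coc_eq_zero_of_torsion {ψ : Additive Γ →+ B} (hψ : KillsEllPar Γ ψ) {a : SL(2, ℤ)} {m : ℕ}
    (hm : 0 < m) (ham : a ^ m = 1) {x : SL(2, ℤ) ⧸ Γ} (hx : a • x = x) : coc Γ ψ a x = 0 := by
  apply hψ
  left
  rw [isOfFinOrder_iff_pow_eq_one]
  refine ⟨m, hm, ?_⟩
  rw [coe_kel_of_fixed Γ hx]
  have : x.out⁻¹ * a * x.out = x.out⁻¹ * a * (x.out⁻¹)⁻¹ := by rw [inv_inv]
  rw [this, conj_pow, ham]
  simp

theorem coc_T_pow_eq_zero {ψ : Additive Γ →+ B} (hψ : KillsEllPar Γ ψ) (n : ℕ)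
    {x : SL(2, ℤ) ⧸ Γ} (hx : ModularGroup.T ^ n • x = x) : coc Γ ψ (ModularGroup.T ^ n) x = 0 := by
  apply hψ
  right
  rw [coe_kel_of_fixed Γ hx]
  have h1 : ((x.out⁻¹ * ModularGroup.T ^ n * x.out : SL(2, ℤ)) : Matrix (Fin 2) (Fin 2) ℤ).trace
      = ((ModularGroup.T ^ n : SL(2, ℤ)) : Matrix (Fin 2) (Fin 2) ℤ).trace := by
    rw [Matrix.SpecialLinearGroup.coe_mul, Matrix.trace_mul_comm,
      ← Matrix.SpecialLinearGroup.coe_mul, mul_inv_cancel_left]
  rw [h1, ← zpow_natCast, ModularGroup.coe_T_zpow]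
  simp [Matrix.trace_fin_two]

/-- the cocycle attached to `ψ`, twisted by the coboundary of `v` -/
noncomputable def tw (ψ : Additive Γ →+ B) (v : SL(2, ℤ) ⧸ Γ → B) (a : SL(2, ℤ))
    (x : SL(2, ℤ) ⧸ Γ) : B :=
  coc Γ ψ a x + (v (a • x) - v x)

theorem tw_mul (ψ : Additive Γ →+ B) (v : SL(2, ℤ) ⧸ Γ → B) (a b : SL(2, ℤ))
    (x : SL(2, ℤ) ⧸ Γ) : tw Γ ψ v (a * b) x = tw Γ ψ v a (b • x) + tw Γ ψ v b x := by
  simp only [tw, coc_mul, mul_smul]
  abel

theorem tw_one (ψ : Additive Γ →+ B) (v : SL(2, ℤ) ⧸ Γ → B) (x : SL(2, ℤ) ⧸ Γ) :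
    tw Γ ψ v 1 x = 0 := by
  simp [tw, coc_one]

theorem tw_eq_zero_of_gen {ψ : Additive Γ →+ B} {v : SL(2, ℤ) ⧸ Γ → B}
    (hS : ∀ x, tw Γ ψ v ModularGroup.S x = 0) (hT : ∀ x, tw Γ ψ v ModularGroup.T x = 0)
    (a : SL(2, ℤ)) (x : SL(2, ℤ) ⧸ Γ) : tw Γ ψ v a x = 0 := by
  have ha : a ∈ Subgroup.closure {ModularGroup.S, ModularGroup.T} := by
    rw [SpecialLinearGroup.SL2Z_generators]; trivial
  induction ha using Subgroup.closure_induction generalizing x with
  | mem y hy =>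
    rcases hy with rfl | hy
    · exact hS x
    · rw [Set.mem_singleton_iff] at hy
      subst hy
      exact hT x
  | one => exact tw_one Γ ψ v x
  | mul a b _ _ iha ihb => rw [tw_mul, iha, ihb, add_zero]
  | inv a _ iha =>
    have h := tw_mul Γ ψ v a a⁻¹ x
    rw [mul_inv_cancel, tw_one, iha, zero_add] at h
    exact h.symm

theorem coc_mem_x0 (ψ : Additive Γ →+ B) (γ : Γ) :
    coc Γ ψ (γ : SL(2, ℤ)) (x0 Γ) = ψ (Additive.ofMul γ) := by
  have hk : kel Γ (γ : SL(2, ℤ)) (x0 Γ)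
      = (⟨(x0 Γ).out, x0_out_mem Γ⟩ : Γ)⁻¹ * γ * ⟨(x0 Γ).out, x0_out_mem Γ⟩ := by
    apply Subtype.ext
    rw [coe_kel_of_fixed Γ (mem_smul_x0 Γ γ)]
    rfl
  rw [coc, hk, ofMul_mul, ofMul_mul, ofMul_inv, map_add, map_add, map_neg]
  abel

theorem eq_zero_of_tw_eq_zero {ψ : Additive Γ →+ B} {v : SL(2, ℤ) ⧸ Γ → B}
    (h : ∀ a x, tw Γ ψ v a x = 0) : ψ = 0 ∧ ∀ x, v x = v (x0 Γ) := by
  have hψ : ψ = 0 := by
    ext γ
    have h1 := h (γ : SL(2, ℤ)) (x0 Γ)
    rw [tw, mem_smul_x0, sub_self, add_zero, coc_mem_x0] at h1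
    simpa using h1
  refine ⟨hψ, fun x => ?_⟩
  have h1 := h x.out (x0 Γ)
  rw [tw, out_smul_x0, hψ] at h1
  simp only [coc, AddMonoidHom.zero_apply, zero_add] at h1
  exact sub_eq_zero.mp h1

omit [AddCommGroup B] in
theorem const_of_invariant (n : SL(2, ℤ) ⧸ Γ → B) (hS : ∀ x, n (ModularGroup.S • x) = n x)
    (hT : ∀ x, n (ModularGroup.T • x) = n x) (x : SL(2, ℤ) ⧸ Γ) : n x = n (x0 Γ) := by
  have key : ∀ (a : SL(2, ℤ)) (y : SL(2, ℤ) ⧸ Γ), n (a • y) = n y := by
    intro a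
    have ha : a ∈ Subgroup.closure {ModularGroup.S, ModularGroup.T} := by
      rw [SpecialLinearGroup.SL2Z_generators]; trivial
    induction ha using Subgroup.closure_induction with
    | mem y hy =>
      rcases hy with rfl | hy
      · exact hS
      · rw [Set.mem_singleton_iff] at hy
        subst hy
        exact hT
    | one => intro y; rw [one_smul]
    | mul a b _ _ iha ihb => intro y; rw [mul_smul, iha, ihb]
    | inv a _ iha => intro y; rw [← iha (a⁻¹ • y), smul_inv_smul]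
  rw [← key x.out (x0 Γ), out_smul_x0]

/-- if `a ^ m` and `a ^ m'` move `y` to the same point, the twisted cocycle agrees. -/
theorem tw_pow_eq_of_smul_eq (ψ : Additive Γ →+ B) (v : SL(2, ℤ) ⧸ Γ → B) (a : SL(2, ℤ))
    (hfix : ∀ (n : ℕ) (x : SL(2, ℤ) ⧸ Γ), a ^ n • x = x → coc Γ ψ (a ^ n) x = 0)
    {m m' : ℕ} (y : SL(2, ℤ) ⧸ Γ) (h : a ^ m • y = a ^ m' • y) :
    tw Γ ψ v (a ^ m) y = tw Γ ψ v (a ^ m') y := by
  wlog hmm : m ≤ m' generalizing m m'
  · exact (this h.symm (le_of_not_ge hmm)).symm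
  obtain ⟨d, rfl⟩ := Nat.exists_eq_add_of_le hmm
  have h1 : a ^ d • (a ^ m • y) = a ^ m • y := by
    rw [← mul_smul, ← pow_add, add_comm d m, ← h]
  rw [add_comm m d, pow_add, tw_mul]
  have h2 : tw Γ ψ v (a ^ d) (a ^ m • y) = 0 := by
    rw [tw, hfix d _ h1, h1, sub_self, add_zero]
  rw [h2, zero_add]

end Coc

section Sums

variable {k : Type*} [Field k] [Fintype (SL(2, ℤ) ⧸ Γ)]

theorem exists_pow_smul_out (a : SL(2, ℤ)) (x : SL(2, ℤ) ⧸ Γ) :
    ∃ i : ℕ, a ^ i • (omk a x).out = x := by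
  have h1 : omk a (omk a x).out = omk a x := Quotient.out_eq' _
  have h2 : x ∈ MulAction.orbit (Subgroup.zpowers a) (omk a x).out := by
    have := Quotient.exact' h1.symm
    exact this
  obtain ⟨⟨g, hg⟩, hgx⟩ := h2
  obtain ⟨z, rfl⟩ := Subgroup.mem_zpowers_iff.mp hg
  have hgx' : a ^ z • (omk a x).out = x := hgx
  classical
  have hfin : IsOfFinOrder (MulAction.toPermHom SL(2, ℤ) (SL(2, ℤ) ⧸ Γ) a) := isOfFinOrder_of_finite _
  have hmem : (MulAction.toPermHom SL(2, ℤ) (SL(2, ℤ) ⧸ Γ) a) ^ z ∈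
      Submonoid.powers (MulAction.toPermHom SL(2, ℤ) (SL(2, ℤ) ⧸ Γ) a) := by
    rw [hfin.mem_powers_iff_mem_zpowers]
    exact Subgroup.zpow_mem_zpowers _ _
  obtain ⟨i, hi⟩ := hmem
  refine ⟨i, ?_⟩
  have hi' : MulAction.toPermHom SL(2, ℤ) (SL(2, ℤ) ⧸ Γ) (a ^ i)
      = MulAction.toPermHom SL(2, ℤ) (SL(2, ℤ) ⧸ Γ) (a ^ z) := by
    rw [map_pow, map_zpow]; exact hi
  have h3 := congrArg (fun e : Equiv.Perm (SL(2, ℤ) ⧸ Γ) => e (omk a x).out) hi'
  have h4 : a ^ i • (omk a x).out = a ^ z • (omk a x).out := h3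
  rw [h4, hgx']

theorem sum_mul_tw_eq_zero (ψ : Additive Γ →+ k) (v : SL(2, ℤ) ⧸ Γ → k) (a : SL(2, ℤ))
    (hfix : ∀ (n : ℕ) (x : SL(2, ℤ) ⧸ Γ), a ^ n • x = x → coc Γ ψ (a ^ n) x = 0)
    (h : SL(2, ℤ) ⧸ Γ → k) (hh : ∀ x, h (a • x) = h x) :
    ∑ x, h x * tw Γ ψ v a x = 0 := by
  classical
  choose i hi using exists_pow_smul_out Γ a
  let w : SL(2, ℤ) ⧸ Γ → k := fun x => tw Γ ψ v (a ^ i x) (omk a x).out
  have hw : ∀ x, tw Γ ψ v a x = w (a • x) - w x := by
    intro x
    have h1 : tw Γ ψ v (a ^ (i x + 1)) (omk a x).out = tw Γ ψ v a x + w x := by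
      rw [pow_succ', tw_mul, hi x]
    have h2 : w (a • x) = tw Γ ψ v (a ^ (i x + 1)) (omk a x).out := by
      show tw Γ ψ v (a ^ i (a • x)) (omk a (a • x)).out = _
      have h3 := hi (a • x)
      rw [omk_smul] at h3 ⊢
      apply tw_pow_eq_of_smul_eq Γ ψ v a hfix
      rw [h3, pow_succ', mul_smul, hi x]
    rw [h2, h1]
    ring
  have h1 : ∑ x, h x * tw Γ ψ v a x = ∑ x, h (a • x) * w (a • x) - ∑ x, h x * w x := by
    rw [← Finset.sum_sub_distrib]
    refine Finset.sum_congr rfl fun x _ => ?_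
    rw [hw, hh]
    ring
  have h2 : ∑ x, h (a • x) * w (a • x) = ∑ x, h x * w x :=
    Equiv.sum_comp (MulAction.toPerm a) (fun x => h x * w x)
  rw [h1, h2, sub_self]

end Sums

section Final

variable (k : Type*) [Field k]

/-- the space of `k`-valued homomorphisms killing elliptic and parabolic elements -/
def ellParHoms : Submodule k (Additive Γ →+ k) where
  carrier := {ψ | KillsEllPar Γ ψ}
  zero_mem' := fun _ _ => rfl
  add_mem' := by
    intro φ ψ hφ hψ γ hγ
    show φ (Additive.ofMul γ) + ψ (Additive.ofMul γ) = 0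
    rw [hφ γ hγ, hψ γ hγ, add_zero]
  smul_mem' := by
    intro c φ hφ γ hγ
    show c • φ (Additive.ofMul γ) = 0
    rw [hφ γ hγ, smul_zero]

variable {k} in
theorem mem_ellParHoms_iff {ψ : Additive Γ →+ k} : ψ ∈ ellParHoms Γ k ↔ KillsEllPar Γ ψ := Iff.rfl

variable {k}

theorem tw_add (ψ ψ' : Additive Γ →+ k) (v v' : SL(2, ℤ) ⧸ Γ → k) (a : SL(2, ℤ)) :
    tw Γ (ψ + ψ') (v + v') a = tw Γ ψ v a + tw Γ ψ' v' a := by
  funext x
  simp only [tw, coc, AddMonoidHom.add_apply, Pi.add_apply]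
  ring

theorem tw_smul (c : k) (ψ : Additive Γ →+ k) (v : SL(2, ℤ) ⧸ Γ → k) (a : SL(2, ℤ)) :
    tw Γ (c • ψ) (c • v) a = c • tw Γ ψ v a := by
  funext x
  simp only [tw, coc, AddMonoidHom.smul_apply, Pi.smul_apply, smul_eq_mul]
  ring

variable [Fintype (SL(2, ℤ) ⧸ Γ)]

theorem tw_pair_mem {ψ : Additive Γ →+ k} (hψ : KillsEllPar Γ ψ) (v : SL(2, ℤ) ⧸ Γ → k) :
    (tw Γ ψ v ModularGroup.S, tw Γ ψ v (ModularGroup.S * ModularGroup.T)) ∈
      Wsub k (X := SL(2, ℤ) ⧸ Γ) ModularGroup.S ModularGroup.T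
        (ModularGroup.S * ModularGroup.T) := by
  apply mem_Wsub_of
  · intro h hh
    refine sum_mul_tw_eq_zero Γ ψ v _ (fun n x hx => ?_) h hh
    exact coc_eq_zero_of_torsion Γ hψ (m := 4) (by norm_num)
      (by rw [← pow_mul, mul_comm, pow_mul, S_pow_four, one_pow]) hx
  · intro h hh
    refine sum_mul_tw_eq_zero Γ ψ v _ (fun n x hx => ?_) h hh
    exact coc_eq_zero_of_torsion Γ hψ (m := 6) (by norm_num)
      (by rw [← pow_mul, mul_comm, pow_mul, ST_pow_six, one_pow]) hx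
  · intro h hh
    have h1 := sum_mul_tw_eq_zero Γ ψ v ModularGroup.T
      (fun n x hx => coc_T_pow_eq_zero Γ hψ n hx) h hh
    rw [← h1]
    refine Finset.sum_congr rfl fun x _ => ?_
    rw [tw_mul]
    ring

variable (k) in
/-- the comparison map -/
noncomputable def Phi : (ellParHoms Γ k × (SL(2, ℤ) ⧸ Γ → k)) →ₗ[k]
    (Wsub k (X := SL(2, ℤ) ⧸ Γ) ModularGroup.S ModularGroup.T (ModularGroup.S * ModularGroup.T)
      × k) where
  toFun p := (⟨(tw Γ p.1.1 p.2 ModularGroup.S, tw Γ p.1.1 p.2 (ModularGroup.S * ModularGroup.T)),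
    tw_pair_mem Γ p.1.2 p.2⟩, p.2 (x0 Γ))
  map_add' p q := by
    refine Prod.ext (Subtype.ext ?_) rfl
    refine Prod.ext ?_ ?_
    · exact tw_add Γ p.1.1 q.1.1 p.2 q.2 _
    · exact tw_add Γ p.1.1 q.1.1 p.2 q.2 _
  map_smul' c p := by
    refine Prod.ext (Subtype.ext ?_) rfl
    refine Prod.ext ?_ ?_
    · exact tw_smul Γ c p.1.1 p.2 _
    · exact tw_smul Γ c p.1.1 p.2 _

theorem Phi_injective : Function.Injective (Phi Γ k) := by
  suffices key : ∀ p, Phi Γ k p = 0 → p = 0 by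
    intro p q h
    have h1 : Phi Γ k (p - q) = 0 := (map_sub (Phi Γ k) p q).trans (sub_eq_zero.mpr h)
    exact sub_eq_zero.mp (key _ h1)
  rintro ⟨⟨ψ, hψ⟩, v⟩ h0
  have h1 : tw Γ ψ v ModularGroup.S = 0 := congrArg (fun q => q.1.1.1) h0
  have h2 : tw Γ ψ v (ModularGroup.S * ModularGroup.T) = 0 := congrArg (fun q => q.1.1.2) h0
  have h3 : v (x0 Γ) = 0 := congrArg (fun q => q.2) h0
  have hS : ∀ x, tw Γ ψ v ModularGroup.S x = 0 := fun x => congrFun h1 x
  have hT : ∀ x, tw Γ ψ v ModularGroup.T x = 0 := by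
    intro x
    have := congrFun h2 x
    rw [tw_mul, hS, zero_add] at this
    exact this
  obtain ⟨hψ0, hv⟩ := eq_zero_of_tw_eq_zero Γ (tw_eq_zero_of_gen Γ hS hT)
  refine Prod.ext (Subtype.ext hψ0) ?_
  funext x
  show v x = 0
  rw [hv x, h3]

theorem finiteDimensional_aux : FiniteDimensional k (ellParHoms Γ k) := by
  have hinj : Function.Injective ((Phi Γ k).comp (LinearMap.inl k (ellParHoms Γ k)
      (SL(2, ℤ) ⧸ Γ → k))) :=
    (Phi_injective Γ).comp LinearMap.inl_injective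
  exact FiniteDimensional.of_injective _ hinj

theorem finrank_add_le_aux :
    Module.finrank k (ellParHoms Γ k) + (Nat.card (Orb (SL(2, ℤ) ⧸ Γ) ModularGroup.S)
      + Nat.card (Orb (SL(2, ℤ) ⧸ Γ) (ModularGroup.S * ModularGroup.T))
      + Nat.card (Orb (SL(2, ℤ) ⧸ Γ) ModularGroup.T)) ≤ Nat.card (SL(2, ℤ) ⧸ Γ) + 2 := by
  have := finiteDimensional_aux Γ (k := k)
  have : Module.Free k (ellParHoms Γ k) := Module.Free.of_divisionRing k (ellParHoms Γ k)
  have h1 := LinearMap.finrank_le_finrank_of_injective (Phi_injective Γ (k := k))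
  rw [Module.finrank_prod, Module.finrank_prod, Module.finrank_fintype_fun_eq_card,
    Module.finrank_self, ← Nat.card_eq_fintype_card] at h1
  have h2 := finrank_Wsub_le k (X := SL(2, ℤ) ⧸ Γ) ModularGroup.S ModularGroup.T
    (ModularGroup.S * ModularGroup.T) (x0 Γ) (const_of_invariant Γ)
  omega

end Final

/-- `Hom(Γ, k)` killing elliptic and parabolic elements is finite dimensional (`k` any field). -/
theorem finiteDimensional_ellParHoms (k : Type*) [Field k] [Γ.FiniteIndex] :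
    FiniteDimensional k (ellParHoms Γ k) := by
  have : Fintype (SL(2, ℤ) ⧸ Γ) := Fintype.ofFinite _
  exact finiteDimensional_aux Γ

/-- the bound `dim + o_S + o_{ST} + o_T ≤ μ + 2` over any field. -/
theorem finrank_ellParHoms_add_le (k : Type*) [Field k] [Γ.FiniteIndex] :
    Module.finrank k (ellParHoms Γ k)
      + (Nat.card (MulAction.orbitRel.Quotient (Subgroup.zpowers ModularGroup.S) (SL(2, ℤ) ⧸ Γ))
      + Nat.card (MulAction.orbitRel.Quotient
          (Subgroup.zpowers (ModularGroup.S * ModularGroup.T)) (SL(2, ℤ) ⧸ Γ))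
      + Nat.card (MulAction.orbitRel.Quotient (Subgroup.zpowers ModularGroup.T) (SL(2, ℤ) ⧸ Γ)))
      ≤ Nat.card (SL(2, ℤ) ⧸ Γ) + 2 := by
  have : Fintype (SL(2, ℤ) ⧸ Γ) := Fintype.ofFinite _
  exact finrank_add_le_aux Γ

open CongruenceSubgroup in
theorem finrank_ellParHoms_Gamma0_le (k : Type*) [Field k] (N : ℕ) [NeZero N] :
    (Module.finrank k (ellParHoms (Gamma0 N) k) : ℤ) ≤ Fermat.Agent.S21.twoGenus N := by
  have h := finrank_ellParHoms_add_le (Gamma0 N) k
  unfold Fermat.Agent.S21.twoGenus Fermat.Agent.S21.orbitCount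
  omega

end Fermat.Agent.Lib.EllPar
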