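import Mathlib
import Fermat.Agent.Lib.EllPar.Bound
import Fermat.Agent.Lib.EllPar.AbFree
import Fermat.Agent.S21.Upper
import Fermat.Agent.S20.Lower

/-!
# `Γ₀(N)^ab / <elliptic, parabolic>` is free of rank `2g`
-/

set_option autoImplicit false
open ModularCurve.Period CongruenceSubgroup
open scoped MatrixGroups

namespace Fermat.Agent.Lib.EllPar

section Quot

variable (Γ : Subgroup SL(2, ℤ))

/-- the subgroup of `Γ^ab` generated by elliptic and parabolic elements -/
def ellParSub : AddSubgroup (Additive (Abelianization Γ)) :=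
  AddSubgroup.closure
    {x | ∃ γ : Γ, IsEllPar (γ : SL(2, ℤ)) ∧ x = Additive.ofMul (Abelianization.of γ)}

/-- `Γ^ab / <ell, par>` -/
abbrev Aq : Type := Additive (Abelianization Γ) ⧸ ellParSub Γ

/-- the projection -/
def proj : Additive Γ →+ Aq Γ :=
  (QuotientAddGroup.mk' (ellParSub Γ)).comp (MonoidHom.toAdditive Abelianization.of)

theorem proj_surjective : Function.Surjective (proj Γ) := by
  intro x
  obtain ⟨y, rfl⟩ := QuotientAddGroup.mk'_surjective (ellParSub Γ) x
  obtain ⟨γ, hγ⟩ : ∃ γ : Γ, Abelianization.of γ = Additive.toMul y :=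
    QuotientGroup.mk_surjective (s := commutator Γ) (Additive.toMul y)
  exact ⟨Additive.ofMul γ, by
    show QuotientAddGroup.mk' (ellParSub Γ) (Additive.ofMul (Abelianization.of γ)) = _
    rw [hγ]; rfl⟩

theorem killsEllPar_proj : KillsEllPar Γ (proj Γ) := by
  intro γ hγ
  show QuotientAddGroup.mk' (ellParSub Γ) (Additive.ofMul (Abelianization.of γ)) = 0
  rw [← AddMonoidHom.mem_ker, QuotientAddGroup.ker_mk']
  exact AddSubgroup.subset_closure ⟨γ, hγ, rfl⟩

variable {B : Type*} [AddCommGroup B]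

/-- universal property -/
def lift (ψ : Additive Γ →+ B) (hψ : KillsEllPar Γ ψ) : Aq Γ →+ B :=
  QuotientAddGroup.lift (ellParSub Γ)
    (MonoidHom.toAdditiveLeft (Abelianization.lift (AddMonoidHom.toMultiplicativeRight ψ)))
    (by
      unfold ellParSub
      rw [AddSubgroup.closure_le]
      rintro x ⟨γ, hγ, rfl⟩
      exact hψ γ hγ)

theorem lift_proj (ψ : Additive Γ →+ B) (hψ : KillsEllPar Γ ψ) (γ : Additive Γ) :
    lift Γ ψ hψ (proj Γ γ) = ψ γ := rfl

theorem lift_unique (χ χ' : Aq Γ →+ B) (h : ∀ γ, χ (proj Γ γ) = χ' (proj Γ γ)) : χ = χ' := by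
  refine AddMonoidHom.ext fun x => ?_
  obtain ⟨γ, rfl⟩ := proj_surjective Γ x
  exact h γ

theorem fg_SL2Z : Group.FG SL(2, ℤ) := by
  rw [Group.fg_iff]
  exact ⟨{ModularGroup.S, ModularGroup.T}, _root_.SpecialLinearGroup.SL2Z_generators, by simp⟩

theorem fg_Aq [Γ.FiniteIndex] : AddGroup.FG (Aq Γ) := by
  have h0 : Group.FG SL(2, ℤ) := fg_SL2Z
  have h1 : Group.FG Γ := Subgroup.fg_of_index_ne_zero Γ
  have h2 : Group.FG (Abelianization Γ) := QuotientGroup.fg (commutator Γ)
  have h3 : AddGroup.FG (Additive (Abelianization Γ)) := AddGroup.fg_iff_mul_fg.mpr h2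
  infer_instance

/-- precomposition with the projection -/
def compProj (k : Type*) [Field k] : (Aq Γ →+ k) →ₗ[k] ellParHoms Γ k where
  toFun χ := ⟨χ.comp (proj Γ), fun γ hγ => by
    show χ (proj Γ _) = 0
    rw [killsEllPar_proj Γ γ hγ, map_zero]⟩
  map_add' _ _ := rfl
  map_smul' _ _ := rfl

theorem compProj_injective (k : Type*) [Field k] : Function.Injective (compProj Γ k) := by
  intro χ χ' h
  refine lift_unique Γ χ χ' fun γ => ?_
  exact DFunLike.congr_fun (congrArg Subtype.val h) γ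

theorem compProj_surjective (k : Type*) [Field k] : Function.Surjective (compProj Γ k) := by
  rintro ⟨ψ, hψ⟩
  exact ⟨lift Γ ψ hψ, rfl⟩

theorem ellParHoms_complex : ellParHoms Γ ℂ = parabolicHoms ℂ Γ ℂ := by
  ext ψ
  constructor
  · intro h γ hγ
    exact h γ (Or.inr hγ)
  · intro h γ hγ
    rcases hγ with hγ | hγ
    · rw [isOfFinOrder_iff_pow_eq_one] at hγ
      obtain ⟨n, hn, hγn⟩ := hγ
      have h1 : n • ψ (Additive.ofMul γ) = 0 := by
        rw [← map_nsmul, ← ofMul_pow]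
        have : γ ^ n = 1 := Subtype.ext (by simpa using hγn)
        rw [this, ofMul_one, map_zero]
      rw [nsmul_eq_mul] at h1
      rcases mul_eq_zero.mp h1 with h2 | h2
      · exact absurd (Nat.cast_eq_zero.mp h2) hn.ne'
      · exact h2
    · exact h γ hγ

end Quot

section Gamma0

variable (N : ℕ) [NeZero N]

/-- `2g = 2 dim S₂(Γ₀(N))` -/
noncomputable def rk : ℕ := 2 * Module.finrank ℂ (CuspForm (Gamma0 N) 2)

theorem rk_eq_twoGenus : (rk N : ℤ) = Fermat.Agent.S21.twoGenus N := by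
  have h1 := Fermat.Agent.S21.two_mul_finrank_le_twoGenus N
  have h2 := Fermat.Agent.S20.twoGenus_le N
  unfold rk
  push_cast
  omega

theorem rk_le_finrank : rk N ≤ Module.finrank ℂ (Aq (Gamma0 N) →+ ℂ) := by
  have h1 := Fermat.Agent.S21.two_mul_finrank_le N (Fermat.Agent.S21.finiteDimensional_parabolicHoms N)
  have h2 : Module.finrank ℂ (Aq (Gamma0 N) →+ ℂ) = Module.finrank ℂ (ellParHoms (Gamma0 N) ℂ) :=
    (LinearEquiv.ofBijective (compProj (Gamma0 N) ℂ)
      ⟨compProj_injective _ _, compProj_surjective _ _⟩).finrank_eq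
  rw [h2, ellParHoms_complex]
  exact h1

theorem nonempty_Aq_equiv : Nonempty (Aq (Gamma0 N) ≃+ (Fin (rk N) → ℤ)) := by
  have := fg_Aq (Gamma0 N)
  refine nonempty_equiv_of_bounds (rk N) (K := ℂ) (rk_le_finrank N) ?_
  intro p _
  have hfd := finiteDimensional_ellParHoms (Gamma0 N) (ZMod p)
  have hno : IsNoetherian (ZMod p) (ellParHoms (Gamma0 N) (ZMod p)) := IsNoetherian.iff_fg.mpr hfd
  refine ⟨Module.Finite.of_injective (compProj (Gamma0 N) (ZMod p))
    (compProj_injective (Gamma0 N) (ZMod p)), ?_⟩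
  have h1 := LinearMap.finrank_le_finrank_of_injective (compProj_injective (Gamma0 N) (ZMod p))
  have h2 := finrank_ellParHoms_Gamma0_le (ZMod p) N
  have h3 := rk_eq_twoGenus N
  omega

/-- a chosen isomorphism `Γ₀(N)^ab / <ell, par> ≃ ℤ^{2g}` -/
noncomputable def AqEquiv : Aq (Gamma0 N) ≃+ (Fin (rk N) → ℤ) := (nonempty_Aq_equiv N).some

/-- the universal basis of `Hom(Γ₀(N) / <ell, par>, ℤ)` -/
noncomputable def basisHom (i : Fin (rk N)) : Additive (Gamma0 N) →+ ℤ :=
  (Pi.evalAddMonoidHom _ i).comp ((AqEquiv N).toAddMonoidHom.comp (proj (Gamma0 N)))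

theorem basisHom_apply (i : Fin (rk N)) (γ : Additive (Gamma0 N)) :
    basisHom N i γ = AqEquiv N (proj (Gamma0 N) γ) i := rfl

theorem killsEllPar_basisHom (i : Fin (rk N)) : KillsEllPar (Gamma0 N) (basisHom N i) := by
  intro γ hγ
  rw [basisHom_apply, killsEllPar_proj (Gamma0 N) γ hγ, map_zero]
  rfl

theorem exists_dualElt (j : Fin (rk N)) : ∃ g : Gamma0 N,
    AqEquiv N (proj (Gamma0 N) (Additive.ofMul g)) = Pi.single j 1 := by
  obtain ⟨γ, hγ⟩ := proj_surjective (Gamma0 N) ((AqEquiv N).symm (Pi.single j 1))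
  exact ⟨Additive.toMul γ, by
    show AqEquiv N (proj (Gamma0 N) γ) = _
    rw [hγ, AddEquiv.apply_symm_apply]⟩

/-- elements of `Γ₀(N)` dual to `basisHom` -/
noncomputable def dualElt (j : Fin (rk N)) : Gamma0 N := (exists_dualElt N j).choose

theorem AqEquiv_dualElt (j : Fin (rk N)) :
    AqEquiv N (proj (Gamma0 N) (Additive.ofMul (dualElt N j))) = Pi.single j 1 :=
  (exists_dualElt N j).choose_spec

theorem basisHom_dualElt (i j : Fin (rk N)) :
    basisHom N i (Additive.ofMul (dualElt N j)) = if i = j then 1 else 0 := by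
  rw [basisHom_apply, AqEquiv_dualElt, Pi.single_apply]

variable {B : Type*} [AddCommGroup B]

/-- **Universal property**: a homomorphism killing elliptic and parabolic elements is determined by
its values on the dual elements, via the universal basis. -/
theorem eq_sum_basisHom (ψ : Additive (Gamma0 N) →+ B) (hψ : KillsEllPar (Gamma0 N) ψ)
    (γ : Additive (Gamma0 N)) :
    ψ γ = ∑ i, basisHom N i γ • ψ (Additive.ofMul (dualElt N i)) := by
  have h1 : proj (Gamma0 N) γ
      = ∑ i, basisHom N i γ • proj (Gamma0 N) (Additive.ofMul (dualElt N i)) := by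
    apply (AqEquiv N).injective
    rw [map_sum]
    funext j
    rw [Finset.sum_apply]
    simp only [map_zsmul, AqEquiv_dualElt, Pi.smul_apply, Pi.single_apply, smul_eq_mul, mul_ite,
      mul_one, mul_zero, Finset.sum_ite_eq, Finset.mem_univ, if_true]
    rfl
  rw [← lift_proj (Gamma0 N) ψ hψ γ, h1, map_sum]
  refine Finset.sum_congr rfl fun i _ => ?_
  rw [map_zsmul, lift_proj]

/-- the homomorphism with prescribed values on the dual elements -/
noncomputable def ofCoeff (b : Fin (rk N) → B) : Additive (Gamma0 N) →+ B :=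
  ∑ i, (zmultiplesHom B (b i)).comp (basisHom N i)

theorem ofCoeff_apply (b : Fin (rk N) → B) (γ : Additive (Gamma0 N)) :
    ofCoeff N b γ = ∑ i, basisHom N i γ • b i := by
  simp [ofCoeff]

theorem killsEllPar_ofCoeff (b : Fin (rk N) → B) : KillsEllPar (Gamma0 N) (ofCoeff N b) := by
  intro γ hγ
  rw [ofCoeff_apply]
  refine Finset.sum_eq_zero fun i _ => ?_
  rw [killsEllPar_basisHom N i γ hγ, zero_smul]

theorem ofCoeff_dualElt (b : Fin (rk N) → B) (j : Fin (rk N)) :
    ofCoeff N b (Additive.ofMul (dualElt N j)) = b j := by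
  rw [ofCoeff_apply]
  simp [basisHom_dualElt]

theorem ofCoeff_eval (ψ : Additive (Gamma0 N) →+ B) (hψ : KillsEllPar (Gamma0 N) ψ) :
    ofCoeff N (fun i => ψ (Additive.ofMul (dualElt N i))) = ψ := by
  refine AddMonoidHom.ext fun γ => ?_
  rw [ofCoeff_apply]
  exact (eq_sum_basisHom N ψ hψ γ).symm

variable (B) in
/-- `Hom(Γ₀(N) / <ell, par>, B) ≃ B^{2g}` -/
noncomputable def homEquiv :
    {ψ : Additive (Gamma0 N) →+ B // KillsEllPar (Gamma0 N) ψ} ≃ (Fin (rk N) → B) where
  toFun ψ i := ψ.1 (Additive.ofMul (dualElt N i))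
  invFun b := ⟨ofCoeff N b, killsEllPar_ofCoeff N b⟩
  left_inv ψ := Subtype.ext (ofCoeff_eval N ψ.1 ψ.2)
  right_inv b := funext fun j => ofCoeff_dualElt N b j

theorem existsUnique_coeff (ψ : Additive (Gamma0 N) →+ B) (hψ : KillsEllPar (Gamma0 N) ψ) :
    ∃! b : Fin (rk N) → B, ∀ γ, ψ γ = ∑ i, basisHom N i γ • b i := by
  refine ⟨fun i => ψ (Additive.ofMul (dualElt N i)), eq_sum_basisHom N ψ hψ, ?_⟩
  intro b hb
  funext j
  rw [hb, ← ofCoeff_apply, ofCoeff_dualElt]

/-- lifting along a surjection -/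
theorem exists_lift {B' : Type*} [AddCommGroup B'] (π : B' →+ B) (hπ : Function.Surjective π)
    (ψ : Additive (Gamma0 N) →+ B) (hψ : KillsEllPar (Gamma0 N) ψ) :
    ∃ Ψ : Additive (Gamma0 N) →+ B', KillsEllPar (Gamma0 N) Ψ ∧ ∀ γ, π (Ψ γ) = ψ γ := by
  choose s hs using hπ
  refine ⟨ofCoeff N (fun i => s (ψ (Additive.ofMul (dualElt N i)))), killsEllPar_ofCoeff N _, ?_⟩
  intro γ
  rw [ofCoeff_apply, map_sum, eq_sum_basisHom N ψ hψ γ]
  refine Finset.sum_congr rfl fun i _ => ?_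
  rw [map_zsmul, hs]

/-- every hom to `ℤ/n` killing elliptic and parabolic elements lifts to `ℤ` -/
theorem exists_lift_int (n : ℕ) (ψ : Additive (Gamma0 N) →+ ZMod n)
    (hψ : KillsEllPar (Gamma0 N) ψ) :
    ∃ Ψ : Additive (Gamma0 N) →+ ℤ, KillsEllPar (Gamma0 N) Ψ ∧ ∀ γ, ((Ψ γ : ℤ) : ZMod n) = ψ γ :=
  exists_lift N (Int.castAddHom (ZMod n)) ZMod.intCast_surjective ψ hψ

theorem card_hom (B : Type*) [AddCommGroup B] :
    Nat.card {ψ : Additive (Gamma0 N) →+ B // KillsEllPar (Gamma0 N) ψ} = Nat.card B ^ rk N := by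
  rw [Nat.card_congr (homEquiv N B), Nat.card_fun, Nat.card_fin]

theorem card_hom_zmod (n : ℕ) :
    Nat.card {ψ : Additive (Gamma0 N) →+ ZMod n // KillsEllPar (Gamma0 N) ψ} = n ^ rk N := by
  rw [card_hom, Nat.card_zmod]

/-- the bundled statement -/
theorem exists_universal_basis : ∃ (r : ℕ) (Φ : Fin r → (Additive (Gamma0 N) →+ ℤ)),
    (r : ℤ) = Fermat.Agent.S21.twoGenus N ∧ r = 2 * Module.finrank ℂ (CuspForm (Gamma0 N) 2) ∧
    (∀ i, KillsEllPar (Gamma0 N) (Φ i)) ∧
    ∀ (ψ : Additive (Gamma0 N) →+ B), KillsEllPar (Gamma0 N) ψ →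
      ∃! b : Fin r → B, ∀ γ, ψ γ = ∑ i, Φ i γ • b i :=
  ⟨rk N, basisHom N, rk_eq_twoGenus N, rfl, killsEllPar_basisHom N, existsUnique_coeff N⟩

/-- multiplicative form of the universal property -/
theorem eq_prod_zpow {C : Type*} [CommGroup C] (χ : Gamma0 N →* C)
    (hχ : ∀ γ : Gamma0 N, IsEllPar (γ : SL(2, ℤ)) → χ γ = 1) (γ : Gamma0 N) :
    χ γ = ∏ i, χ (dualElt N i) ^ basisHom N i (Additive.ofMul γ) := by
  have h := eq_sum_basisHom N (B := Additive C) (MonoidHom.toAdditive χ)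
    (fun γ hγ => congrArg Additive.ofMul (hχ γ hγ)) (Additive.ofMul γ)
  have h2 := congrArg Additive.toMul h
  rw [toMul_sum] at h2
  exact h2

end Gamma0

end Fermat.Agent.Lib.EllPar
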